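import Mathlib
import Fermat.Agent.LT.T7.H57.FoldSpec

/-!
# Row LT, tower T7, node T7.14 `RigidC`, leaf T7.14.6a-F.3 `WhitMeasC57` (registry 1913)

OFF-MAIN (helper385).  `whitMeasC385 : T1.LocCompC K → H57.WhitMeasC57 K`, VERBATIM Prop of
`LT/T7/H57/FoldSpec.lean` (helper57@bf22be140, sha256 cb77c17e).

Proof.  `g ↦ W_φ(g) = ∫_D φ(n(x) g) ψ̄(x) dν(x)` is CONTINUOUS on `GL₂(𝔸_K)` (dominated
convergence: `φ` continuous and bounded, `ν D < ∞`, `GL₂(𝔸_K)` first countable by `T1.LocCompC`),
`y ↦ diag(y, 1)` is continuous on the ideles, and a continuous function is Borel measurable.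
-/

set_option autoImplicit false
set_option linter.style.haveILetI false
set_option linter.unusedVariables false

open AutomorphicForm IsDedekindDomain NumberField Filter Topology MeasureTheory
open scoped ComplexConjugate ENNReal

noncomputable section

namespace Fermat.Agent.LT.T7.H385

open Fermat.Agent.LT.H556 Fermat.Agent.LT.H556.A0 Fermat.Agent.LT.T7 Fermat.Agent.LT.T7.Rigid

attribute [local instance] Fermat.Agent.LT.T5.instMeasurableSpaceG

variable (K : Type) [Field K] [NumberField K]

/-- `x ↦ n(x)` is continuous. -/
theorem continuous_unip385 : Continuous (Fermat.Agent.LT.T3.unip K) := by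
  rw [Units.continuous_iff]
  constructor
  · refine continuous_matrix fun i j => ?_
    fin_cases i <;> fin_cases j
    · exact continuous_const
    · exact continuous_id
    · exact continuous_const
    · exact continuous_const
  · refine continuous_matrix fun i j => ?_
    fin_cases i <;> fin_cases j
    · exact continuous_const
    · exact continuous_neg
    · exact continuous_const
    · exact continuous_const

/-- `y ↦ diag(y, 1)` is continuous on the ideles. -/
theorem continuous_dgA385 : Continuous (dgA : (Adl K)ˣ → G K) := by
  rw [Units.continuous_iff]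
  constructor
  · refine continuous_matrix fun i j => ?_
    fin_cases i <;> fin_cases j
    · exact Units.continuous_val
    · exact continuous_const
    · exact continuous_const
    · exact continuous_const
  · refine continuous_matrix fun i j => ?_
    fin_cases i <;> fin_cases j
    · exact Units.continuous_coe_inv
    · exact continuous_const
    · exact continuous_const
    · exact continuous_const

/-- The Whittaker function of a bounded continuous function is continuous on `GL₂(𝔸_K)`. -/
theorem continuous_whit385 [FirstCountableTopology (G K)]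
    (ψ : AddChar (Adl K) Circle) (hψ : Continuous ψ)
    (ν : @Measure (Adl K) (borel (Adl K))) (D : Set (Adl K))
    (hD : MeasurableSet[borel (Adl K)] D) (hfin : ν D < ⊤)
    (φ : G K → ℂ) (hφ : Continuous φ) (hb : ∃ C : ℝ, ∀ g : G K, ‖φ g‖ ≤ C) :
    Continuous fun g : G K => @whit K _ _ (borel (Adl K)) ψ ν D φ g := by
  letI : MeasurableSpace (Adl K) := borel (Adl K)
  haveI : BorelSpace (Adl K) := ⟨rfl⟩
  obtain ⟨C, hC⟩ := hb
  unfold whit
  refine continuous_of_dominated (bound := fun _ => C) ?_ ?_ ?_ ?_
  · intro g
    have hc : Continuous fun x : Adl K =>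
        φ (Fermat.Agent.LT.T3.unip K x * g) * conj ((ψ x : Circle) : ℂ) := by
      refine Continuous.mul ?_ ?_
      · exact hφ.comp ((continuous_unip385 K).mul continuous_const)
      · exact Complex.continuous_conj.comp (continuous_subtype_val.comp hψ)
    exact hc.aestronglyMeasurable
  · intro g
    refine Filter.Eventually.of_forall fun x => ?_
    rw [norm_mul, RCLike.norm_conj, Circle.norm_coe, mul_one]
    exact hC _
  · exact integrableOn_const hfin.ne
  · refine Filter.Eventually.of_forall fun x => ?_
    refine Continuous.mul ?_ continuous_const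
    exact hφ.comp (continuous_const.mul continuous_id)

/-- **T7.14.6a-F.3 `WhitMeasC57`** from the local compactness package of T1. -/
theorem whitMeasC385 (hT1 : Fermat.Agent.LT.T1.LocCompC K) : H57.WhitMeasC57 K := by
  obtain ⟨-, -, -, hsc⟩ := hT1
  haveI : SecondCountableTopology (G K) := hsc
  intro ψ hψ ν D _ hD hfin φ hφ hb
  letI : MeasurableSpace (Adl K)ˣ := borel (Adl K)ˣ
  haveI : BorelSpace (Adl K)ˣ := ⟨rfl⟩
  have h1 := continuous_whit385 K ψ hψ.cont ν D hD hfin φ hφ hb
  exact (h1.comp (continuous_dgA385 K)).measurable

end Fermat.Agent.LT.T7.H385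

end
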