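import Mathlib
import Fermat.Agent.LT.T7.H305.MatchCut

/-!
# Row LT, tower T7, node C2.7 `CutIntC305`, leaf C2.7.9 `LocVanC305` (registry 2573)

OFF-MAIN (helper385).  `locVanC385 : H305.LocVanC305`, UNCONDITIONAL, VERBATIM Prop of
`LT/T7/H305/MatchCut.lean` (helper305@56ddcdc02, sha256 0f302b81).

Proof.  `T6.OrbSumExC` for `k' = k`, `l = e = 1`, `i = id`, `s = 1` gives an orbit sum `c`;
`c = 0` by hypothesis; `T6.OrbSumIntC` for `l = 1`, `s = 1`: the cut-off integral is `c`.
-/

set_option autoImplicit false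

open MeasureTheory

noncomputable section

namespace Fermat.Agent.LT.T7.H385

open Fermat.Agent.LT Fermat.Agent.LT.T7 Fermat.Agent.LT.T7.H305

/-- `glAut` of the identity automorphism is the identity. -/
theorem glAut_refl385 {k : Type} [Field k] (x : GL (Fin 2) k) :
    T6.glAut (RingEquiv.refl k) x = x := by
  apply Units.ext
  ext i j
  rfl

/-- The twisted norm of degree `1`. -/
theorem twNorm_one385 {k : Type} [Field k] (s : k ≃+* k) (δ : GL (Fin 2) k) :
    T6.twNorm s 1 δ = δ := by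
  unfold T6.twNorm
  rw [T6.twN, T6.twN, map_one, mul_one]

/-- The trivial cyclic extension `k / k` of degree `1`. -/
theorem isLocalExt_refl385 (k : Type) [Field k] [Valued k T6.Γ₀] :
    T6.IsLocalExt k k 1 1 (RingHom.id k) (RingEquiv.refl k) where
  cyc :=
    { pos := Nat.one_pos
      fix_i := fun _ => rfl
      fixed := fun y _ => ⟨y, rfl⟩
      order := fun _ => rfl
      faithful := fun m hm hm1 => absurd hm1 (by omega) }
  e_pos := Nat.one_pos
  val_i := fun x => by rw [pow_one]; rfl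
  val_s := fun _ => rfl

/-- **Leaf C2.7.9 `LocVanC305`**, unconditional. -/
theorem locVanC385 : LocVanC305 := by
  intro hT6 k _ _ q hk n f hf hfs γ hγ hvan μ hμ μT hμT β hβ
  have hEx : T6.OrbSumExC := hT6.2.2.2.2.2.2.2.2.1
  have hInt : T6.OrbSumIntC := hT6.2.2.2.2.2.2.2.2.2.2.1
  have hk' : T6.IsLocalField k (q ^ (1 / 1)) := by
    have e : q ^ (1 / 1) = q := by norm_num
    rw [e]
    exact hk
  have hreg : T6.IsReg (T6.twNorm (RingEquiv.refl k) 1 γ) := by
    rw [twNorm_one385]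
    exact hγ
  obtain ⟨c, hc⟩ := hEx k k q 1 1 (RingHom.id k) (RingEquiv.refl k) hk hk'
    (isLocalExt_refl385 k) n f hf hfs γ hreg
  have hc0 : c = 0 := hvan c hc
  rw [hc0] at hc
  have h := hInt k q 1 (RingEquiv.refl k) hk (fun _ => rfl) Nat.one_pos (fun _ => rfl)
    n f hf hfs γ 0 hreg hc μ hμ.1 hμ.2 μT hμT.1 hμT.2 β hβ.1 hβ.2.1 hβ.2.2
  have e : (fun y : GL (Fin 2) k => f (y⁻¹ * γ * y) * ((β y : ℝ) : ℂ))
      = fun x : GL (Fin 2) k => f (x⁻¹ * γ * T6.glAut (RingEquiv.refl k) x) * (β x : ℂ) := by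
    funext x
    rw [glAut_refl385]
  unfold locInt305
  rw [e]
  exact h

end Fermat.Agent.LT.T7.H385

end
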