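import Mathlib
import Fermat.Agent.LT.T7.H558.FactDownSpec
import Fermat.Agent.LT.H942.CompactBounds

/-!
# Row LT, tower T7, node C2.7.7 `FactDownC305`, leaf FD.5 `CutOnOutC558` (registry 2640)

OFF-MAIN (helper385).  `cutOnOutC385 (K) : H558.CutOnOutC558 K`, UNCONDITIONAL, VERBATIM Prop of
`LT/T7/H558/FactDownSpec.lean` (helper558@b6c4c8a4b, sha256 8043f526).

Proof.  `Out_S` is an open subgroup (`H942.isOpen_integralOutside942`), so for `x' ∈ Out_S`:
`t x' ∈ Out_S ⟺ t ∈ Out_S`, and `A = {t ∈ T_𝔸(γ) : t ∈ Out_S}` is measurable.  The integrand is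
`1_A(t) g(compS305 S t)`, `g(a, b) = cT⁻¹ ∏_v β_v(a_v x'_v) ∏_w β_w(b_w x'_w)`; the image of
`μT|_A` under `compS305 S` is `cT` times the product of the local torus measures
(`IsTorConst305`); Fubini for products (`integral_prod_mul`, `integral_fintype_prod_eq_prod`);
the local integrals are `1` (`IsLocCut305`, `IsCut305`).
-/

set_option autoImplicit false
set_option linter.style.haveILetI false

open AutomorphicForm IsDedekindDomain NumberField MeasureTheory

noncomputable section

namespace Fermat.Agent.LT.T7.H385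

open Fermat.Agent.LT Fermat.Agent.LT.H556 Fermat.Agent.LT.H556.A0 Fermat.Agent.LT.T7
open Fermat.Agent.LT.T7.H305 Fermat.Agent.LT.T7.H558

/-! ## 1. The abstract computation -/

open Classical in
/-- Fubini for a cut-off of product form. -/
theorem integral_cut_abs385 {X : Type*} [MeasurableSpace X] {ι κ : Type*} [Fintype ι]
    [Fintype κ] {Y : ι → Type*} [∀ i, MeasurableSpace (Y i)] {Z : κ → Type*}
    [∀ j, MeasurableSpace (Z j)] (μ : Measure X) (A : Set X) (hA : MeasurableSet A)
    (φ : X → (∀ i, Y i) × (∀ j, Z j)) (hφ : Measurable φ)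
    (ν : ∀ i, Measure (Y i)) (ρ : ∀ j, Measure (Z j)) [∀ i, SigmaFinite (ν i)]
    [∀ j, SigmaFinite (ρ j)] (c : ℝ) (hc : 0 < c)
    (hmap : Measure.map φ (μ.restrict A)
      = ENNReal.ofReal c • ((Measure.pi ν).prod (Measure.pi ρ)))
    (a : ∀ i, Y i → ℝ) (b : ∀ j, Z j → ℝ) (ha : ∀ i, Measurable (a i))
    (hb : ∀ j, Measurable (b j))
    (ha1 : ∀ i, ∫ y, a i y ∂ν i = 1) (hb1 : ∀ j, ∫ z, b j z ∂ρ j = 1) :
    ∫ x, (if x ∈ A then c⁻¹ * (∏ i, a i ((φ x).1 i)) * ∏ j, b j ((φ x).2 j) else 0) ∂μ
      = 1 := by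
  set g : (∀ i, Y i) × (∀ j, Z j) → ℝ :=
    fun p => c⁻¹ * (∏ i, a i (p.1 i)) * ∏ j, b j (p.2 j) with hg
  have hgm : Measurable g := by
    refine (measurable_const.mul ?_).mul ?_
    · exact Finset.measurable_prod _ fun i _ =>
        (ha i).comp ((measurable_pi_apply i).comp measurable_fst)
    · exact Finset.measurable_prod _ fun j _ =>
        (hb j).comp ((measurable_pi_apply j).comp measurable_snd)
  have e1 : (fun x => if x ∈ A then c⁻¹ * (∏ i, a i ((φ x).1 i)) * ∏ j, b j ((φ x).2 j)
      else 0) = A.indicator (fun x => g (φ x)) := by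
    funext x
    by_cases hx : x ∈ A
    · rw [if_pos hx, Set.indicator_of_mem hx]
    · rw [if_neg hx, Set.indicator_of_notMem hx]
  rw [e1, integral_indicator hA, ← integral_map hφ.aemeasurable hgm.aestronglyMeasurable, hmap,
    integral_smul_measure, ENNReal.toReal_ofReal hc.le]
  have e2 : ∫ p, g p ∂((Measure.pi ν).prod (Measure.pi ρ))
      = c⁻¹ * ((∫ y, ∏ i, a i (y i) ∂(Measure.pi ν)) * ∫ z, ∏ j, b j (z j) ∂(Measure.pi ρ)) := by
    rw [← integral_prod_mul, ← integral_const_mul]
    congr 1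
    funext p
    show (c⁻¹ * ∏ i, a i (p.1 i)) * ∏ j, b j (p.2 j) = _
    rw [mul_assoc]
  rw [e2, integral_fintype_prod_eq_prod, integral_fintype_prod_eq_prod]
  simp only [ha1, hb1, Finset.prod_const_one, mul_one, smul_eq_mul]
  exact mul_inv_cancel₀ hc.ne'

/-! ## 2. `Out_S` is a subgroup -/

section Out

variable {K : Type} [Field K] [NumberField K]

theorem isIntegralAt_mul385 {v : HeightOneSpectrum (𝓞 K)} {a b : G K}
    (ha : IsIntegralAt v a) (hb : IsIntegralAt v b) : IsIntegralAt v (a * b) := by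
  intro i j
  rw [H942.finComp_mul942, Matrix.mul_apply]
  exact sum_mem fun k _ => mul_mem (ha i k) (hb k j)

theorem outT_mul385 {S : Finset (HeightOneSpectrum (𝓞 K))} {a b : G K}
    (ha : OutT305 S a) (hb : OutT305 S b) : OutT305 S (a * b) := fun v hv =>
  ⟨isIntegralAt_mul385 (ha v hv).1 (hb v hv).1, by
    rw [mul_inv_rev]
    exact isIntegralAt_mul385 (hb v hv).2 (ha v hv).2⟩

theorem outT_inv385 {S : Finset (HeightOneSpectrum (𝓞 K))} {a : G K}
    (ha : OutT305 S a) : OutT305 S a⁻¹ := fun v hv =>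
  ⟨(ha v hv).2, by rw [inv_inv]; exact (ha v hv).1⟩

theorem outT_mul_iff385 {S : Finset (HeightOneSpectrum (𝓞 K))} {t x : G K}
    (hx : OutT305 S x) : OutT305 S (t * x) ↔ OutT305 S t := by
  constructor
  · intro h
    have := outT_mul385 h (outT_inv385 hx)
    rwa [mul_inv_cancel_right] at this
  · intro h
    exact outT_mul385 h hx

end Out

/-! ## 3. The leaf -/

/-- **Leaf FD.5 `CutOnOutC558`**, unconditional. -/
theorem cutOnOutC385 (K : Type) [Field K] [NumberField K] : CutOnOutC558 K := by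
  intro hσv hσc hcont m S γ hell hgood μT hμT L cT hL hcT hconst x' hx'
  classical
  letI iT : MeasurableSpace (tA305 (T5.AdelicAut.id K) γ) := borel _
  haveI bT : BorelSpace (tA305 (T5.AdelicAut.id K) γ) := ⟨rfl⟩
  letI iv : ∀ v : HeightOneSpectrum (𝓞 K), MeasurableSpace (GL (Fin 2) (v.adicCompletion K)) :=
    fun _ => borel _
  haveI bv : ∀ v : HeightOneSpectrum (𝓞 K), BorelSpace (GL (Fin 2) (v.adicCompletion K)) :=
    fun _ => ⟨rfl⟩
  letI ic : MeasurableSpace (GL (Fin 2) ℂ) := borel _
  haveI bc : BorelSpace (GL (Fin 2) ℂ) := ⟨rfl⟩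
  letI itv : ∀ v : HeightOneSpectrum (𝓞 K), MeasurableSpace
      (T6.twCentSub (T6.glAut (RingEquiv.refl (v.adicCompletion K))) (locG305 v γ)) :=
    fun _ => borel _
  haveI btv : ∀ v : HeightOneSpectrum (𝓞 K), BorelSpace
      (T6.twCentSub (T6.glAut (RingEquiv.refl (v.adicCompletion K))) (locG305 v γ)) :=
    fun _ => ⟨rfl⟩
  letI itc : ∀ w : InfinitePlace K, MeasurableSpace (cent305 (archG305 w γ)) := fun _ => borel _
  haveI btc : ∀ w : InfinitePlace K, BorelSpace (cent305 (archG305 w γ)) := fun _ => ⟨rfl⟩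
  have hmap := hconst S hgood
  -- the set `A`
  have hAo : IsOpen {t : tA305 (T5.AdelicAut.id K) γ | OutT305 S (t : G K)} :=
    (H942.isOpen_integralOutside942 S).preimage continuous_subtype_val
  have hAm : MeasurableSet {t : tA305 (T5.AdelicAut.id K) γ | OutT305 S (t : G K)} :=
    hAo.measurableSet
  -- σ-finiteness
  haveI sν : ∀ i : S, SigmaFinite (Measure.map Subtype.val (L.μt i.1)) :=
    fun i => hσv i.1 (locG305 i.1 γ) (L.μt i.1) (hL.tor i.1).1
  haveI sρ : ∀ w : InfinitePlace K, SigmaFinite (Measure.map Subtype.val (L.μtc w)) :=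
    fun w => hσc (archG305 w γ) (L.μtc w) (hL.torc w)
  -- measurability of the components
  have hφ : Measurable (fun t : tA305 (T5.AdelicAut.id K) γ => compS305 S (t : G K)) := by
    refine Measurable.prodMk ?_ ?_
    · exact measurable_pi_lambda _ fun i =>
        ((hcont.1 i.1).comp continuous_subtype_val).measurable
    · exact measurable_pi_lambda _ fun w =>
        ((hcont.2 w).comp continuous_subtype_val).measurable
  have ha : ∀ i : S, Measurable
      (fun y : GL (Fin 2) (i.1.adicCompletion K) => L.βv i.1 (y * finGL305 i.1 x')) :=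
    fun i => ((hL.cut i.1).1.comp (continuous_mul_const _)).measurable
  have hb : ∀ w : InfinitePlace K, Measurable
      (fun y : GL (Fin 2) ℂ => L.βc w (y * infGL305 w x')) :=
    fun w => ((hL.cutc w).1.comp (continuous_mul_const _)).measurable
  -- the local integrals
  have ha1 : ∀ i : S, ∫ y, L.βv i.1 (y * finGL305 i.1 x')
      ∂(Measure.map Subtype.val (L.μt i.1)) = 1 := by
    intro i
    rw [integral_map continuous_subtype_val.measurable.aemeasurable
      (ha i).aestronglyMeasurable]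
    exact (hL.cut i.1).2.2 (finGL305 i.1 x')
  have hb1 : ∀ w : InfinitePlace K, ∫ y, L.βc w (y * infGL305 w x')
      ∂(Measure.map Subtype.val (L.μtc w)) = 1 := by
    intro w
    rw [integral_map continuous_subtype_val.measurable.aemeasurable
      (hb w).aestronglyMeasurable]
    exact (hL.cutc w).2.2 (infGL305 w x')
  have key := integral_cut_abs385 (Y := fun i : S => GL (Fin 2) (i.1.adicCompletion K))
    (Z := fun _ : InfinitePlace K => GL (Fin 2) ℂ) μT _ hAm _ hφ
    (fun i : S => Measure.map Subtype.val (L.μt i.1))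
    (fun w : InfinitePlace K => Measure.map Subtype.val (L.μtc w)) cT hcT hmap
    (fun i y => L.βv i.1 (y * finGL305 i.1 x')) (fun w y => L.βc w (y * infGL305 w x'))
    ha hb ha1 hb1
  rw [← key]
  congr 1
  funext t
  unfold prodCut305
  by_cases ht : OutT305 S (t : G K)
  · rw [if_pos ((outT_mul_iff385 hx').2 ht), if_pos (show t ∈ {t : tA305 (T5.AdelicAut.id K) γ |
      OutT305 S (t : G K)} from ht)]
    have e1 : ∀ v : HeightOneSpectrum (𝓞 K),
        finGL305 v ((t : G K) * x') = finGL305 v (t : G K) * finGL305 v x' :=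
      fun v => map_mul _ _ _
    have e2 : ∀ w : InfinitePlace K,
        infGL305 w ((t : G K) * x') = infGL305 w (t : G K) * infGL305 w x' :=
      fun w => map_mul _ _ _
    simp only [e1, e2]
    rw [← Finset.prod_coe_sort S (fun v => L.βv v (finGL305 v (t : G K) * finGL305 v x'))]
    rfl
  · rw [if_neg (fun h => ht ((outT_mul_iff385 hx').1 h)),
      if_neg (show ¬ t ∈ {t : tA305 (T5.AdelicAut.id K) γ | OutT305 S (t : G K)} from ht)]

end Fermat.Agent.LT.T7.H385

end
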