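import Mathlib
import Fermat.Agent.LT.T7.H776.WBasisSpec
import Fermat.Agent.LT.T2.H333.Book

/-!
# Row LT, tower T7, node T7.L2.3.5.4 `WBasisC`, leaf WB.B1 `FinAvgPosC776` (registry 2389)

OFF-MAIN (helper385).  `finAvgPosC385 (K) : FinAvgPosC776 K`, UNCONDITIONAL, VERBATIM Prop of
`LT/T7/H776/WBasisSpec.lean` (helper776@c8c37e749, sha256 ebd5d61e).

Proof.  A member `h = i u` of `Rep` is trivial at infinity, a positive scalar `z` at the infinite
place `w` is trivial at the finite places: `z h = h z`, and `ψ(g z h) = ψ((g h) z) = ψ(g h)`.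
-/

set_option autoImplicit false
set_option linter.unusedSectionVars false
set_option linter.unusedVariables false

open AutomorphicForm IsDedekindDomain NumberField MeasureTheory

noncomputable section

namespace Fermat.Agent.LT.T7.H385

open Fermat.Agent.LT.H556 Fermat.Agent.LT.H556.A0 Fermat.Agent.LT.T7 Fermat.Agent.LT.T2

variable {K : Type} [Field K] [NumberField K]

/-- An element which is trivial at infinity commutes with an element which is trivial at the
finite places. -/
theorem commute_triv385 {h k : G K} (hh : ∀ w : InfinitePlace K, TrivAtInf w h)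
    (hk : ∀ v : HeightOneSpectrum (𝓞 K), TrivAtFin v k) : h * k = k * h := by
  apply Units.ext
  rw [Units.val_mul, Units.val_mul]
  apply H333.adeleMatrix_ext333
  · intro w
    rw [Matrix.map_mul, Matrix.map_mul, (H333.trivAtInf_iff333 w h).1 (hh w), one_mul, mul_one]
  · intro v
    rw [Matrix.map_mul, Matrix.map_mul, (H333.trivAtFin_iff333 v k).1 (hk v), one_mul, mul_one]

theorem trivAtInf_mul385 {w : InfinitePlace K} {a b : G K} (ha : TrivAtInf w a)
    (hb : TrivAtInf w b) : TrivAtInf w (a * b) := by
  rw [H333.trivAtInf_iff333] at ha hb ⊢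
  rw [Units.val_mul, Matrix.map_mul, ha, hb, one_mul]

/-- **Leaf WB.B1 `FinAvgPosC776`**, unconditional. -/
theorem finAvgPosC385 (K : Type) [Field K] [NumberField K] : WB776.FinAvgPosC776 K := by
  intro 𝔑 𝔑₀ l o Rep hRep ψ hψ w z hz g
  unfold H193.finAvg
  congr 1
  refine Finset.sum_congr rfl fun h hh => ?_
  obtain ⟨i, u, hi, hu, rfl⟩ := hRep.mem h hh
  have hcomm : i * u * z = z * (i * u) :=
    commute_triv385 (fun w' => trivAtInf_mul385 (hi.1 w') (hu.1 w')) (fun v => hz.1.2 v)
  rw [mul_assoc, ← hcomm, ← mul_assoc]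
  exact hψ w z hz (g * (i * u))

end Fermat.Agent.LT.T7.H385

end
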